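import Fermat.Agent.S22.Defs

set_option autoImplicit false

namespace Fermat.Agent.S22

open UpperHalfPlane ModularForm EisensteinSeries
open scoped MatrixGroups ModularForm Manifold

namespace DeltaInt

open ArithmeticFunction

/-- Coefficients of `E₄`: `1` and `240 σ₃(n)`. -/
theorem E₄_coeff (n : ℕ) :
    (qExpansion 1 E₄).coeff n = if n = 0 then 1 else 240 * (sigma 3 n : ℂ) := by
  rw [E_qExpansion_coeff _ ⟨2, rfl⟩]
  norm_num [show bernoulli 4 = -1 / 30 by decide +kernel]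

/-- Coefficients of `E₆`: `1` and `-504 σ₅(n)`. -/
theorem E₆_coeff (n : ℕ) :
    (qExpansion 1 E₆).coeff n = if n = 0 then 1 else -504 * (sigma 5 n : ℂ) := by
  rw [E_qExpansion_coeff _ ⟨3, rfl⟩]
  norm_num [show bernoulli 6 = 1 / 42 by decide +kernel]

/-- The series `∑ σ₃(n) Xⁿ` over `ℤ`. -/
noncomputable def A : PowerSeries ℤ := PowerSeries.mk fun n => (sigma 3 n : ℤ)

/-- The series `∑ σ₅(n) Xⁿ` over `ℤ`. -/
noncomputable def B : PowerSeries ℤ := PowerSeries.mk fun n => (sigma 5 n : ℤ)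

/-- The series `∑ ((5 σ₃(n) + 7 σ₅(n)) / 12) Xⁿ` over `ℤ`. -/
noncomputable def C : PowerSeries ℤ :=
  PowerSeries.mk fun n => (5 * (sigma 3 n : ℤ) + 7 * (sigma 5 n : ℤ)) / 12

theorem twelve_dvd_aux (d : ℕ) : (12 : ℤ) ∣ 5 * (d : ℤ) ^ 3 + 7 * (d : ℤ) ^ 5 := by
  have h : ∀ x : ZMod 12, 5 * x ^ 3 + 7 * x ^ 5 = 0 := by decide
  have h2 := h (d : ZMod 12)
  have h3 := (ZMod.intCast_zmod_eq_zero_iff_dvd (5 * (d : ℤ) ^ 3 + 7 * (d : ℤ) ^ 5) 12).mp
    (by push_cast; exact h2)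
  exact_mod_cast h3

theorem twelve_dvd_sigma (n : ℕ) : (12 : ℤ) ∣ 5 * (sigma 3 n : ℤ) + 7 * (sigma 5 n : ℤ) := by
  rw [sigma_apply, sigma_apply]
  push_cast
  rw [Finset.mul_sum, Finset.mul_sum, ← Finset.sum_add_distrib]
  exact Finset.dvd_sum fun d _ => twelve_dvd_aux d

theorem twelve_mul_C : (12 : PowerSeries ℤ) * C = 5 * A + 7 * B := by
  ext n
  have h12 : (12 : PowerSeries ℤ) = PowerSeries.C (12 : ℤ) := by simp
  have h5 : (5 : PowerSeries ℤ) = PowerSeries.C (5 : ℤ) := by simp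
  have h7 : (7 : PowerSeries ℤ) = PowerSeries.C (7 : ℤ) := by simp
  rw [h12, h5, h7, map_add, PowerSeries.coeff_C_mul, PowerSeries.coeff_C_mul,
    PowerSeries.coeff_C_mul]
  simp only [A, B, C, PowerSeries.coeff_mk]
  exact Int.mul_ediv_cancel' (twelve_dvd_sigma n)

/-- The integral series of `Δ`. -/
noncomputable def P : PowerSeries ℤ := C + 100 * A ^ 2 + 8000 * A ^ 3 - 147 * B ^ 2

theorem key_identity :
    (1 + 240 * A) ^ 3 - (1 - 504 * B) ^ 2 = (1728 : PowerSeries ℤ) * P := by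
  unfold P
  linear_combination (-144 : PowerSeries ℤ) * twelve_mul_C

theorem map_E₄ :
    PowerSeries.map (Int.castRingHom ℂ) (1 + 240 * A) = qExpansion 1 E₄ := by
  ext n
  have h240 : (240 : PowerSeries ℤ) = PowerSeries.C (240 : ℤ) := by simp
  rw [PowerSeries.coeff_map, E₄_coeff, map_add, h240, PowerSeries.coeff_C_mul, A,
    PowerSeries.coeff_mk, PowerSeries.coeff_one]
  split_ifs with h
  · subst h; simp
  · simp

theorem map_E₆ :
    PowerSeries.map (Int.castRingHom ℂ) (1 - 504 * B) = qExpansion 1 E₆ := by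
  ext n
  have h504 : (504 : PowerSeries ℤ) = PowerSeries.C (504 : ℤ) := by simp
  rw [PowerSeries.coeff_map, E₆_coeff, map_sub, h504, PowerSeries.coeff_C_mul, B,
    PowerSeries.coeff_mk, PowerSeries.coeff_one]
  split_ifs with h
  · subst h; simp
  · simp

theorem smul_discriminant_qExpansion :
    (1728 : ℂ) • qExpansion 1 discriminant = qExpansion 1 E₄ ^ 3 - qExpansion 1 E₆ ^ 2 := by
  have h1 : qExpansion 1 (ModularForm.mcast (by decide) (E₄.pow 3) -
      ModularForm.mcast (by decide) (E₆.pow 2) : ModularForm 𝒮ℒ 12) =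
      qExpansion 1 E₄ ^ 3 - qExpansion 1 E₆ ^ 2 := by
    simp only [FunLike.coe_sub, coe_mcast,
      ModularForm.qExpansion_sub one_pos one_mem_strictPeriods_SL,
      ModularForm.qExpansion_pow one_pos one_mem_strictPeriods_SL]
  have h2 : ((ModularForm.mcast (by decide) (E₄.pow 3) -
      ModularForm.mcast (by decide) (E₆.pow 2) : ModularForm 𝒮ℒ 12) : ℍ → ℂ) =
      (1728 : ℂ) • (discriminant : ℍ → ℂ) := by
    ext z
    simp only [FunLike.coe_sub, coe_mcast, coe_pow, Pi.sub_apply, Pi.pow_apply, Pi.smul_apply,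
      smul_eq_mul, discriminant_eq_E₄_cube_sub_E₆_sq]
    ring
  rw [← h1, h2]
  exact (UpperHalfPlane.qExpansion_smul (ModularFormClass.analyticAt_cuspFunction_zero
    CuspForm.discriminant one_pos one_mem_strictPeriods_SL) 1728).symm

theorem discriminant_qExpansion_eq_map :
    qExpansion 1 discriminant = PowerSeries.map (Int.castRingHom ℂ) P := by
  have h := smul_discriminant_qExpansion
  rw [← map_E₄, ← map_E₆, ← map_pow, ← map_pow, ← map_sub, key_identity, map_mul] at h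
  have h1728 : PowerSeries.map (Int.castRingHom ℂ) (1728 : PowerSeries ℤ) =
      PowerSeries.C (1728 : ℂ) := by
    have : (1728 : PowerSeries ℤ) = PowerSeries.C (1728 : ℤ) := by simp
    rw [this, PowerSeries.map_C]
    simp
  rw [h1728, ← PowerSeries.smul_eq_C_mul] at h
  exact smul_right_injective _ (by norm_num : (1728 : ℂ) ≠ 0) h

end DeltaInt

theorem E₄_qExpansion_int (n : ℕ) : ∃ m : ℤ, (qExpansion 1 E₄).coeff n = (m : ℂ) := by
  rw [← DeltaInt.map_E₄, PowerSeries.coeff_map]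
  exact ⟨_, rfl⟩

theorem E₆_qExpansion_int (n : ℕ) : ∃ m : ℤ, (qExpansion 1 E₆).coeff n = (m : ℂ) := by
  rw [← DeltaInt.map_E₆, PowerSeries.coeff_map]
  exact ⟨_, rfl⟩

theorem discriminant_qExpansion_int (n : ℕ) :
    ∃ m : ℤ, (qExpansion 1 discriminant).coeff n = (m : ℂ) := by
  rw [DeltaInt.discriminant_qExpansion_eq_map, PowerSeries.coeff_map]
  exact ⟨_, rfl⟩

end Fermat.Agent.S22
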