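import Fermat.Agent.S22.Defs
import Fermat.Prelude.Thm_ModularForm_sturm_bound_Gamma0
import Fermat.Prelude.Thm_CongruenceSubgroup_one_mem_strictPeriods_Gamma0
import Fermat.Prelude.Thm_ModularFormClass_qCoeff_heckeT
import Fermat.Prelude.Thm_ModularFormClass_qCoeff_heckeU

set_option autoImplicit false

namespace Fermat.Agent.S22

open UpperHalfPlane ModularForm
open scoped MatrixGroups ModularForm Manifold

namespace FinalAlgebra

theorem one_mem_periods (N : ℕ) : (1 : ℝ) ∈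
    (Subgroup.map (Matrix.SpecialLinearGroup.mapGL ℝ) (CongruenceSubgroup.Gamma0 N)).strictPeriods :=
  CongruenceSubgroup.one_mem_strictPeriods_Gamma0 N

/-- The `n`-th `q`-expansion coefficient as a linear functional on cusp forms. -/
noncomputable def coeffL (N : ℕ) (k : ℤ) (n : ℕ) :
    CuspForm (CongruenceSubgroup.Gamma0 N) k →ₗ[ℂ] ℂ where
  toFun f := (qExpansion 1 f).coeff n
  map_add' f g := by
    rw [FunLike.coe_add, ModularForm.qExpansion_add one_pos (one_mem_periods N) f g, map_add]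
  map_smul' c f := by
    rw [FunLike.coe_smul, ModularForm.qExpansion_smul one_pos (one_mem_periods N) c f]
    simp

theorem coeffL_apply (N : ℕ) (k : ℤ) (n : ℕ) (f : CuspForm (CongruenceSubgroup.Gamma0 N) k) :
    coeffL N k n f = (qExpansion 1 f).coeff n := rfl

theorem eq_zero_of_coeffL (N : ℕ) [NeZero N] (k : ℤ)
    (f : CuspForm (CongruenceSubgroup.Gamma0 N) k)
    (h : ∀ n : ℕ, n ≤ (k * (CongruenceSubgroup.Gamma0 N).index).toNat / 12 → coeffL N k n f = 0) :
    f = 0 := by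
  have hmf : (ModularFormClass.modularForm f : ModularForm (CongruenceSubgroup.Gamma0 N) k) = 0 := by
    refine ModularForm.sturm_bound_Gamma0 N _ fun n hn ↦ ?_
    exact h n hn
  have hcoe : (⇑f : ℍ → ℂ) = 0 := by
    have := congrArg (fun F : ModularForm (CongruenceSubgroup.Gamma0 N) k ↦ (⇑F : ℍ → ℂ)) hmf
    simpa using this
  exact DFunLike.coe_injective (hcoe.trans FunLike.coe_zero.symm)

theorem finiteDimensional (N : ℕ) [NeZero N] (k : ℤ) :
    FiniteDimensional ℂ (CuspForm (CongruenceSubgroup.Gamma0 N) k) := by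
  let B := (k * (CongruenceSubgroup.Gamma0 N).index).toNat / 12
  let tr : CuspForm (CongruenceSubgroup.Gamma0 N) k →ₗ[ℂ] (Fin (B + 1) → ℂ) :=
    LinearMap.pi fun i => coeffL N k i
  have hinj : Function.Injective tr := by
    refine (injective_iff_map_eq_zero _).mpr fun f hf ↦ ?_
    refine eq_zero_of_coeffL N k f fun n hn => ?_
    have := congrFun hf ⟨n, Nat.lt_succ_of_le hn⟩
    simpa [tr] using this
  exact FiniteDimensional.of_injective tr hinj

theorem subsingleton_of_weight_nonpos (N : ℕ) [NeZero N] (k : ℤ) (hk : k ≤ 0) :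
    Subsingleton (CuspForm (CongruenceSubgroup.Gamma0 N) k) := by
  refine ⟨fun f g => ?_⟩
  have key : ∀ f : CuspForm (CongruenceSubgroup.Gamma0 N) k, f = 0 := by
    intro f
    refine eq_zero_of_coeffL N k f fun n hn => ?_
    have h0 : (k * ((CongruenceSubgroup.Gamma0 N).index : ℤ)).toNat = 0 := by
      apply Int.toNat_of_nonpos
      exact mul_nonpos_of_nonpos_of_nonneg hk (Int.natCast_nonneg _)
    have hn0 : n = 0 := by
      rw [h0] at hn
      simpa using hn
    subst hn0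
    exact CuspFormClass.qExpansion_coeff_zero f one_pos (one_mem_periods N)
  rw [key f, key g]

/-- The lattice spanned by the coefficient functionals. -/
noncomputable def coeffLattice (N : ℕ) (k : ℤ) :
    Submodule ℤ (CuspForm (CongruenceSubgroup.Gamma0 N) k →ₗ[ℂ] ℂ) :=
  Submodule.span ℤ (Set.range (coeffL N k))

theorem coeffL_mem (N : ℕ) (k : ℤ) (n : ℕ) : coeffL N k n ∈ coeffLattice N k :=
  Submodule.subset_span ⟨n, rfl⟩

theorem exists_fg_coeff (R : Subring ℂ) (hR : Module.Finite ℤ R)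
    (ρ : (ℍ → ℂ) → ℕ → ℂ) (hρ : ∀ W n, ρ W n ∈ R)
    (ι : Type) (T : Finset ι) (lam : ι → ℂ) (W : ι → ℍ → ℂ) :
    ∃ M : Submodule ℤ ℂ, M.FG ∧ ∀ n : ℕ, ∑ i ∈ T, lam i * ρ (W i) n ∈ M := by
  classical
  let R' : Submodule ℤ ℂ := AddSubgroup.toIntSubmodule R.toAddSubgroup
  have hR' : R'.FG := by
    rw [Submodule.fg_iff_addSubgroup_fg, AddSubgroup.toIntSubmodule_toAddSubgroup,
      ← AddGroup.fg_iff_addSubgroup_fg]
    rw [Module.Finite.iff_addGroup_fg] at hR
    exact hR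
  refine ⟨T.sup (fun i => R'.map (LinearMap.mulLeft ℤ (lam i))), ?_, ?_⟩
  · exact Submodule.fg_finset_sup _ _ (fun i _ => hR'.map _)
  · intro n
    refine Submodule.sum_mem _ fun i hi => ?_
    have hle : R'.map (LinearMap.mulLeft ℤ (lam i)) ≤
        T.sup (fun i => R'.map (LinearMap.mulLeft ℤ (lam i))) :=
      Finset.le_sup (f := fun i => R'.map (LinearMap.mulLeft ℤ (lam i))) hi
    exact hle ⟨ρ (W i) n, hρ _ _, rfl⟩

theorem coeffLattice_fg (N : ℕ) [NeZero N] (k : ℤ)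
    (hA : ∀ f : CuspForm (CongruenceSubgroup.Gamma0 N) k,
      ∃ M : Submodule ℤ ℂ, M.FG ∧ ∀ n : ℕ, coeffL N k n f ∈ M) :
    (coeffLattice N k).FG := by
  classical
  have := finiteDimensional N k
  let b := Module.finBasis ℂ (CuspForm (CongruenceSubgroup.Gamma0 N) k)
  choose M hMfg hM using hA
  let ev : (CuspForm (CongruenceSubgroup.Gamma0 N) k →ₗ[ℂ] ℂ) →ₗ[ℤ]
      (Fin (Module.finrank ℂ (CuspForm (CongruenceSubgroup.Gamma0 N) k)) → ℂ) :=
    { toFun := fun φ i => φ (b i)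
      map_add' := fun φ ψ => by funext i; simp
      map_smul' := fun c φ => by funext i; simp }
  have hev : Function.Injective ev := by
    intro φ ψ h
    exact b.ext fun i => congrFun h i
  let L0 : Submodule ℤ (Fin (Module.finrank ℂ (CuspForm (CongruenceSubgroup.Gamma0 N) k)) → ℂ) :=
    Submodule.pi Set.univ (fun i => M (b i))
  have hL0 : L0.FG := Submodule.fg_pi (fun i => hMfg (b i))
  have hle : (coeffLattice N k).map ev ≤ L0 := by
    rw [coeffLattice, Submodule.map_span, Submodule.span_le]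
    rintro _ ⟨_, ⟨n, rfl⟩, rfl⟩
    intro i _
    exact hM (b i) n
  exact Submodule.fg_of_fg_map_injective ev hev (hL0.of_le hle)

theorem coeffL_comp_heckeT (N : ℕ) (k : ℤ) {ℓ : ℕ} (hℓ : ℓ.Prime) (hℓN : ¬ ℓ ∣ N) (n : ℕ) :
    (coeffL N k n) ∘ₗ (CuspForm.heckeTLin k hℓ hℓN) =
      coeffL N k (n * ℓ) + if ℓ ∣ n then ((ℓ : ℂ) ^ (k - 1)) • coeffL N k (n / ℓ) else 0 := by
  ext f
  have h := ModularFormClass.qCoeff_heckeT f (one_mem_periods N) hℓ.ne_zero n
  rw [LinearMap.comp_apply, coeffL_apply, CuspForm.coe_heckeTLin_apply]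
  simp only [ModularFormClass.qCoeff, ModularForm.coeffHeckeT] at h
  rw [h]
  split_ifs <;> simp [coeffL_apply]

theorem coeffL_comp_heckeU (N : ℕ) [NeZero N] (k : ℤ) {q : ℕ} (hq : q.Prime) (hqN : q ∣ N) (n : ℕ) :
    (coeffL N k n) ∘ₗ (CuspForm.heckeULin k hqN) = coeffL N k (n * q) := by
  ext f
  have h := ModularFormClass.qCoeff_heckeU (k := k) f (one_mem_periods N) hq.ne_zero n
  rw [LinearMap.comp_apply, coeffL_apply, CuspForm.coe_heckeULin_apply]
  simp only [ModularFormClass.qCoeff, ModularForm.coeffHeckeU] at h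
  rw [h]
  rfl

/-- Precomposition with an endomorphism, as a `ℤ`-linear map on functionals. -/
noncomputable def pre (N : ℕ) (k : ℤ) (t : Module.End ℂ (CuspForm (CongruenceSubgroup.Gamma0 N) k)) :
    (CuspForm (CongruenceSubgroup.Gamma0 N) k →ₗ[ℂ] ℂ) →ₗ[ℤ]
      (CuspForm (CongruenceSubgroup.Gamma0 N) k →ₗ[ℂ] ℂ) where
  toFun φ := φ ∘ₗ t
  map_add' φ ψ := LinearMap.add_comp _ _ _
  map_smul' c φ := by ext f; simp

theorem pre_apply (N : ℕ) (k : ℤ) (t : Module.End ℂ (CuspForm (CongruenceSubgroup.Gamma0 N) k))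
    (φ : CuspForm (CongruenceSubgroup.Gamma0 N) k →ₗ[ℂ] ℂ) : pre N k t φ = φ ∘ₗ t := rfl

theorem pre_mem_of_gen (N : ℕ) (k : ℤ) (t : Module.End ℂ (CuspForm (CongruenceSubgroup.Gamma0 N) k))
    (h : ∀ n : ℕ, (coeffL N k n) ∘ₗ t ∈ coeffLattice N k)
    {φ : CuspForm (CongruenceSubgroup.Gamma0 N) k →ₗ[ℂ] ℂ} (hφ : φ ∈ coeffLattice N k) :
    φ ∘ₗ t ∈ coeffLattice N k := by
  have hle : coeffLattice N k ≤ (coeffLattice N k).comap (pre N k t) := by
    rw [coeffLattice, Submodule.span_le]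
    rintro _ ⟨n, rfl⟩
    exact h n
  exact hle hφ

theorem comp_mem_coeffLattice (N : ℕ) [NeZero N] (k : ℤ) (hk : 1 ≤ k) (S : Set ℕ)
    {t : Module.End ℂ (CuspForm (CongruenceSubgroup.Gamma0 N) k)}
    (ht : t ∈ CuspForm.heckeAlgebra N k S)
    {φ : CuspForm (CongruenceSubgroup.Gamma0 N) k →ₗ[ℂ] ℂ} (hφ : φ ∈ coeffLattice N k) :
    φ ∘ₗ t ∈ coeffLattice N k := by
  revert φ
  refine Algebra.adjoin_induction
    (p := fun t _ => ∀ {φ}, φ ∈ coeffLattice N k → φ ∘ₗ t ∈ coeffLattice N k) ?_ ?_ ?_ ?_ ht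
  · rintro x (⟨ℓ, hℓ, hℓN, -, rfl⟩ | ⟨q, hqN, hq, -, rfl⟩) φ hφ
    · refine pre_mem_of_gen N k _ (fun n => ?_) hφ
      rw [coeffL_comp_heckeT]
      refine add_mem (coeffL_mem N k _) ?_
      split_ifs
      · have hk1 : k - 1 = ((k - 1).toNat : ℤ) := (Int.toNat_of_nonneg (by omega)).symm
        rw [hk1, zpow_natCast, ← Nat.cast_pow, Nat.cast_smul_eq_nsmul]
        exact nsmul_mem (coeffL_mem N k _) _
      · exact zero_mem _
    · refine pre_mem_of_gen N k _ (fun n => ?_) hφ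
      rw [coeffL_comp_heckeU N k hq]
      exact coeffL_mem N k _
  · intro r φ hφ
    have : φ ∘ₗ (algebraMap ℤ (Module.End ℂ (CuspForm (CongruenceSubgroup.Gamma0 N) k)) r) =
        r • φ := by
      ext f
      simp
    rw [this]
    exact Submodule.smul_mem _ r hφ
  · intro x y _ _ hx hy φ hφ
    rw [LinearMap.comp_add]
    exact add_mem (hx hφ) (hy hφ)
  · intro x y _ _ hx hy φ hφ
    have : φ ∘ₗ (x * y) = (φ ∘ₗ x) ∘ₗ y := by
      ext f
      simp
    rw [this]
    exact hy (hx hφ)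

end FinalAlgebra

theorem exists_zeta_ring (N : ℕ) (hN : 0 < N) :
    ∃ R : Subring ℂ, zetaN N ∈ R ∧ Module.Finite ℤ R := by
  have hint : IsIntegral ℤ (zetaN N) := by
    refine ⟨Polynomial.X ^ N - 1, Polynomial.monic_X_pow_sub_C 1 hN.ne', ?_⟩
    have h1 : zetaN N ^ N = 1 := by
      rw [zetaN, ← Complex.exp_nat_mul]
      have hN' : (N : ℂ) ≠ 0 := Nat.cast_ne_zero.mpr hN.ne'
      rw [show (N : ℂ) * (2 * (Real.pi : ℂ) * Complex.I / (N : ℂ)) = 2 * Real.pi * Complex.I by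
        field_simp]
      exact Complex.exp_two_pi_mul_I
    simp [h1]
  refine ⟨(Algebra.adjoin ℤ {zetaN N}).toSubring, ?_, ?_⟩
  · exact Algebra.subset_adjoin (Set.mem_singleton _)
  · have hfg : (Subalgebra.toSubmodule (Algebra.adjoin ℤ {zetaN N})).FG :=
      hint.fg_adjoin_singleton
    have : Module.Finite ℤ (Algebra.adjoin ℤ {zetaN N}) := Module.Finite.of_fg hfg
    rw [Module.Finite.iff_addGroup_fg] at this ⊢
    exact this

theorem finite_of_weight_nonpos (N : ℕ) [NeZero N] (k : ℤ) (hk : k ≤ 0) (S : Set ℕ) :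
    Module.Finite ℤ (CuspForm.heckeAlgebra N k S) := by
  have := FinalAlgebra.subsingleton_of_weight_nonpos N k hk
  have : Subsingleton (Module.End ℂ (CuspForm (CongruenceSubgroup.Gamma0 N) k)) :=
    ⟨fun a b => LinearMap.ext fun x => Subsingleton.elim _ _⟩
  have : Subsingleton (CuspForm.heckeAlgebra N k S) :=
    ⟨fun a b => Subtype.ext (Subsingleton.elim _ _)⟩
  infer_instance

open FinalAlgebra in
theorem finite_of_key (N : ℕ) [NeZero N] (k : ℤ) (hk : 1 ≤ k) (S : Set ℕ)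
    (R : Subring ℂ) (hR : Module.Finite ℤ R)
    (ρ : (ℍ → ℂ) → ℕ → ℂ) (hρ : ∀ W n, ρ W n ∈ R)
    (hkey : ∀ f : CuspForm (CongruenceSubgroup.Gamma0 N) k,
      ∃ (ι : Type) (T : Finset ι) (lam : ι → ℂ) (W : ι → ℍ → ℂ),
        ∀ n : ℕ, (qExpansion 1 f).coeff n = ∑ i ∈ T, lam i * ρ (W i) n) :
    Module.Finite ℤ (CuspForm.heckeAlgebra N k S) := by
  classical
  have hA : ∀ f : CuspForm (CongruenceSubgroup.Gamma0 N) k,
      ∃ M : Submodule ℤ ℂ, M.FG ∧ ∀ n : ℕ, coeffL N k n f ∈ M := by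
    intro f
    obtain ⟨ι, T, lam, W, h⟩ := hkey f
    obtain ⟨M, hM, hmem⟩ := exists_fg_coeff R hR ρ hρ ι T lam W
    refine ⟨M, hM, fun n => ?_⟩
    rw [coeffL_apply, h n]
    exact hmem n
  have hfg := coeffLattice_fg N k hA
  have : IsNoetherian ℤ (coeffLattice N k) := isNoetherian_of_fg_of_noetherian _ hfg
  obtain ⟨s, hs⟩ := hfg
  let Θ : (CuspForm.heckeAlgebra N k S) →ₗ[ℤ] (s → coeffLattice N k) :=
    { toFun := fun t φ => ⟨(φ : CuspForm (CongruenceSubgroup.Gamma0 N) k →ₗ[ℂ] ℂ) ∘ₗ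
          (t : Module.End ℂ (CuspForm (CongruenceSubgroup.Gamma0 N) k)),
        comp_mem_coeffLattice N k hk S t.2 (hs ▸ Submodule.subset_span φ.2)⟩
      map_add' := fun t t' => by
        funext φ
        apply Subtype.ext
        simp [LinearMap.comp_add]
      map_smul' := fun c t => by
        funext φ
        apply Subtype.ext
        ext f
        simp }
  have hinj : Function.Injective Θ := by
    refine (injective_iff_map_eq_zero _).mpr fun t ht ↦ ?_
    have h1 : ∀ φ ∈ s, pre N k (t : Module.End ℂ (CuspForm (CongruenceSubgroup.Gamma0 N) k)) φ = 0 := by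
      intro φ hφ
      have := congrArg Subtype.val (congrFun ht ⟨φ, hφ⟩)
      exact this
    have h2 : coeffLattice N k ≤
        LinearMap.ker (pre N k (t : Module.End ℂ (CuspForm (CongruenceSubgroup.Gamma0 N) k))) := by
      rw [← hs, Submodule.span_le]
      intro φ hφ
      exact h1 φ hφ
    apply Subtype.ext
    refine LinearMap.ext fun f => ?_
    rw [ZeroMemClass.coe_zero, LinearMap.zero_apply]
    refine eq_zero_of_coeffL N k _ fun n _ => ?_
    have := h2 (coeffL_mem N k n)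
    rw [LinearMap.mem_ker, pre_apply] at this
    exact LinearMap.congr_fun this f
  exact Module.Finite.of_injective Θ hinj

end Fermat.Agent.S22
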