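import Fermat.Agent.S22.Defs
import Fermat.Prelude.Def_ModularForm_HeckeOperator

set_option autoImplicit false

namespace Fermat.Agent.S22

open UpperHalfPlane ModularForm Matrix.SpecialLinearGroup
open scoped MatrixGroups ModularForm Manifold

namespace Hermite

theorem det_eq (g : SL(2, ℤ)) : g 0 0 * g 1 1 - g 0 1 * g 1 0 = 1 := by
  have h := g.det_coe
  rwa [Matrix.det_fin_two] at h

/-- Hermite normal form of `diag(N,1) * γ`, entrywise over the integers. -/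
theorem exists_hermite (N : ℕ) [NeZero N] (γ : SL(2, ℤ)) :
    ∃ (a b d : ℕ) (γ' : SL(2, ℤ)), a * d = N ∧ (γ ∉ CongruenceSubgroup.Gamma0 N → a < N) ∧
      (N : ℤ) * γ 0 0 = γ' 0 0 * a ∧ (N : ℤ) * γ 0 1 = γ' 0 0 * b + γ' 0 1 * d ∧
      γ 1 0 = γ' 1 0 * a ∧ γ 1 1 = γ' 1 0 * b + γ' 1 1 * d := by
  have hdet := det_eq γ
  have hN : 0 < N := Nat.pos_of_ne_zero (NeZero.ne N)
  obtain ⟨a, ha⟩ : ∃ a : ℕ, a = Nat.gcd N (γ 1 0).natAbs := ⟨_, rfl⟩
  have haN : a ∣ N := ha ▸ Nat.gcd_dvd_left _ _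
  have ha_pos : 0 < a := ha ▸ Nat.gcd_pos_of_pos_left _ hN
  have har : (a : ℤ) ∣ γ 1 0 := Int.natCast_dvd.mpr (ha ▸ Nat.gcd_dvd_right _ _)
  have hbez : (a : ℤ) = N * Int.gcdA N (γ 1 0) + γ 1 0 * Int.gcdB N (γ 1 0) := by
    have := Int.gcd_eq_gcd_ab (N : ℤ) (γ 1 0)
    rw [← this, ha]
    simp [Int.gcd]
  obtain ⟨d, hd⟩ := haN
  obtain ⟨r', hr'⟩ := har
  have hd_pos : 0 < d := by
    rcases Nat.eq_zero_or_pos d with h | h
    · rw [h, mul_zero] at hd; omega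
    · exact h
  obtain ⟨u, hu⟩ : ∃ u : ℤ, u = Int.gcdA N (γ 1 0) := ⟨_, rfl⟩
  obtain ⟨v, hv⟩ : ∃ v : ℤ, v = Int.gcdB N (γ 1 0) := ⟨_, rfl⟩
  rw [← hu, ← hv] at hbez
  have hd' : (N : ℤ) = a * d := by exact_mod_cast hd
  have h1 : (d : ℤ) * u + r' * v = 1 := by
    have ha0 : (a : ℤ) ≠ 0 := by exact_mod_cast ha_pos.ne'
    apply mul_left_cancel₀ ha0
    rw [hd', hr'] at hbez
    linear_combination -hbez
  obtain ⟨b₀, hb₀⟩ : ∃ b₀ : ℤ, b₀ = γ 1 1 * v := ⟨_, rfl⟩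
  obtain ⟨b, hb⟩ : ∃ b : ℕ, b = (b₀ % d).toNat := ⟨_, rfl⟩
  obtain ⟨t, ht⟩ : ∃ t : ℤ, t = b₀ / d := ⟨_, rfl⟩
  have hb' : (b : ℤ) = b₀ % d := by
    rw [hb]
    exact Int.toNat_of_nonneg (Int.emod_nonneg _ (by exact_mod_cast hd_pos.ne'))
  have hbt : b₀ = b + d * t := by
    rw [hb', ht]; exact (Int.emod_add_mul_ediv b₀ d).symm
  refine ⟨a, b, d, ⟨!![d * γ 0 0, a * γ 0 1 - γ 0 0 * b; r', γ 1 1 * u + r' * t], ?_⟩,
    hd.symm, ?_, ?_, ?_, ?_, ?_⟩
  · rw [Matrix.det_fin_two_of]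
    linear_combination hdet + (γ 0 0 * γ 1 1) * h1 - (γ 0 0 * r') * hbt
      + (γ 0 0 * r') * hb₀ + (γ 0 1) * hr'
  · intro hγ
    rcases Nat.lt_or_ge a N with h | h
    · exact h
    · exfalso
      apply hγ
      have haN' : a = N := le_antisymm (Nat.le_of_dvd hN ⟨d, hd⟩) h
      rw [CongruenceSubgroup.Gamma0_mem, ZMod.intCast_zmod_eq_zero_iff_dvd]
      exact ⟨r', by rw [← haN']; exact hr'⟩
  · simp only [Matrix.of_apply, Matrix.cons_val', Matrix.cons_val_zero,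
      Matrix.cons_val_fin_one]
    rw [hd']; ring
  · simp only [Matrix.of_apply, Matrix.cons_val', Matrix.cons_val_zero, Matrix.cons_val_one,
      Matrix.cons_val_fin_one]
    rw [hd']; ring
  · simp only [Matrix.of_apply, Matrix.cons_val', Matrix.cons_val_zero, Matrix.cons_val_one,
      Matrix.cons_val_fin_one]
    rw [hr']; ring
  · simp only [Matrix.of_apply, Matrix.cons_val', Matrix.cons_val_zero, Matrix.cons_val_one,
      Matrix.cons_val_fin_one]
    linear_combination (-(γ 1 1)) * h1 + r' * hbt - r' * hb₀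

/-- The integer identities give `D * γ = γ' * U` in `GL (Fin 2) ℝ`. -/
theorem gl_identity (N a b d : ℕ) (γ γ' : SL(2, ℤ)) (h1 : (N : ℝ) * 1 ≠ 0)
    (h2 : (a : ℝ) * d ≠ 0)
    (e1 : (N : ℤ) * γ 0 0 = γ' 0 0 * a) (e2 : (N : ℤ) * γ 0 1 = γ' 0 0 * b + γ' 0 1 * d)
    (e3 : γ 1 0 = γ' 1 0 * a) (e4 : γ 1 1 = γ' 1 0 * b + γ' 1 1 * d) :
    upperTriangularGL N 0 1 h1 * mapGL ℝ γ = mapGL ℝ γ' * upperTriangularGL a b d h2 := by
  have e1' := congrArg (Int.cast : ℤ → ℝ) e1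
  have e2' := congrArg (Int.cast : ℤ → ℝ) e2
  have e3' := congrArg (Int.cast : ℤ → ℝ) e3
  have e4' := congrArg (Int.cast : ℤ → ℝ) e4
  push_cast at e1' e2' e3' e4'
  ext i j
  fin_cases i <;> fin_cases j <;>
    simp [Matrix.mul_apply, Fin.sum_univ_two]
  · linear_combination e1'
  · linear_combination e2'
  · linear_combination e3'
  · linear_combination e4'

/-- Weight 12 slash by an upper triangular matrix with positive diagonal. -/
theorem slash_upperTriangular (f : ℍ → ℂ) (a b d : ℕ) (ha : 0 < a) (hd : 0 < d)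
    (h : (a : ℝ) * d ≠ 0) (τ : ℍ) :
    (f ∣[(12 : ℤ)] upperTriangularGL a b d h) τ =
      ((a : ℂ) * d) ^ 11 * ((d : ℂ) ^ 12)⁻¹ *
        f (ofComplex (((a : ℂ) * (τ : ℂ) + (b : ℂ)) / (d : ℂ))) := by
  have hdet : ((upperTriangularGL a b d h).det : ℝ) = a * d := by
    rw [Matrix.GeneralLinearGroup.val_det_apply, val_upperTriangularGL, Matrix.det_fin_two_of]
    ring
  have hpos : 0 < ((upperTriangularGL a b d h).det : ℝ) := by
    rw [hdet]; positivity
  have hσ : σ (upperTriangularGL a b d h) = .refl ℝ ℂ := by rw [σ, if_pos hpos]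
  have hden : denom (upperTriangularGL a b d h) τ = d := by
    simp [denom]
  have hsmul : ((upperTriangularGL a b d h • τ : ℍ) : ℂ) =
      ((a : ℂ) * (τ : ℂ) + (b : ℂ)) / (d : ℂ) := by
    rw [coe_smul_of_det_pos hpos]
    simp [num, denom]
  rw [ModularForm.slash_apply, hσ, hdet, hden, ← hsmul, ofComplex_apply]
  have hab : |(a : ℝ) * d| = a * d := abs_of_pos (by positivity)
  rw [hab]
  simp only [ContinuousAlgEquiv.refl_apply]
  have h11 : ((12 : ℤ) - 1) = ((11 : ℕ) : ℤ) := by norm_num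
  have h12 : (-(12 : ℤ)) = -((12 : ℕ) : ℤ) := by norm_num
  rw [h11, h12, zpow_natCast, zpow_neg, zpow_natCast]
  push_cast
  ring

end Hermite

theorem slash_shiftDelta (N : ℕ) [NeZero N] (γ : SL(2, ℤ)) :
    ∃ a b d : ℕ, a * d = N ∧ (γ ∉ CongruenceSubgroup.Gamma0 N → a < N) ∧
      (shiftDelta N 0 1) ∣[(12 : ℤ)] (mapGL ℝ γ) =
        fun τ => ((d : ℂ) ^ 12)⁻¹ * shiftDelta a b d τ := by
  obtain ⟨a, b, d, γ', had, hlt, e1, e2, e3, e4⟩ := Hermite.exists_hermite N γ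
  refine ⟨a, b, d, had, hlt, ?_⟩
  have hN : 0 < N := Nat.pos_of_ne_zero (NeZero.ne N)
  have ha : 0 < a := by
    rcases Nat.eq_zero_or_pos a with h | h
    · rw [h, zero_mul] at had; omega
    · exact h
  have hd : 0 < d := by
    rcases Nat.eq_zero_or_pos d with h | h
    · rw [h, mul_zero] at had; omega
    · exact h
  have h1 : (N : ℝ) * 1 ≠ 0 := by positivity
  have h2 : (a : ℝ) * d ≠ 0 := by positivity
  have hN0 : (N : ℂ) ≠ 0 := by exact_mod_cast hN.ne'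
  have hd0 : (d : ℂ) ≠ 0 := by exact_mod_cast hd.ne'
  have hadC : (a : ℂ) * d = N := by exact_mod_cast had
  have hmat := Hermite.gl_identity N a b d γ γ' h1 h2 e1 e2 e3 e4
  -- `shiftDelta N 0 1` as a scalar multiple of a slash of the discriminant
  have hD : shiftDelta N 0 1 =
      ((N : ℂ) ^ 11)⁻¹ • (ModularForm.discriminant ∣[(12 : ℤ)] upperTriangularGL N 0 1 h1) := by
    funext τ
    have := Hermite.slash_upperTriangular ModularForm.discriminant N 0 1 hN Nat.one_pos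
      (by exact_mod_cast h1) τ
    rw [Pi.smul_apply, smul_eq_mul]
    simp only [Nat.cast_one, Nat.cast_zero] at this
    rw [this]
    simp only [shiftDelta, Nat.cast_one, Nat.cast_zero]
    field_simp
  have hinv : ModularForm.discriminant ∣[(12 : ℤ)] (mapGL ℝ γ') = ModularForm.discriminant := by
    have := SlashInvariantFormClass.slash_action_eq CuspForm.discriminant (mapGL ℝ γ') ⟨γ', rfl⟩
    rwa [CuspForm.coe_discriminant] at this
  have hσ : σ (mapGL ℝ γ) = .refl ℝ ℂ := by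
    rw [σ, if_pos (by simp)]
  rw [hD, ModularForm.smul_slash, hσ, ← SlashAction.slash_mul, hmat, SlashAction.slash_mul, hinv]
  funext τ
  rw [Pi.smul_apply, smul_eq_mul, Hermite.slash_upperTriangular _ a b d ha hd h2 τ]
  simp only [ContinuousAlgEquiv.refl_apply, shiftDelta]
  rw [hadC]
  field_simp

end Fermat.Agent.S22
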