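import Fermat.Agent.S22.Defs

set_option autoImplicit false

namespace Fermat.Agent.S22

open UpperHalfPlane ModularForm
open scoped MatrixGroups ModularForm Manifold

namespace ShiftExpansion

/-- The image point `(a z + b) / d` lies in the upper half plane. -/
lemma im_pos_aux (a b d : ℕ) (ha : 0 < a) (hd : 0 < d) (z : ℂ) (hz : 0 < z.im) :
    0 < (((a : ℂ) * z + (b : ℂ)) / (d : ℂ)).im := by
  have h1 : (((a : ℂ) * z + (b : ℂ)) / (d : ℂ)).im = (a : ℝ) * z.im / (d : ℝ) := by
    rw [Complex.div_natCast_im]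
    simp
  rw [h1]
  have ha' : (0 : ℝ) < a := by exact_mod_cast ha
  have hd' : (0 : ℝ) < d := by exact_mod_cast hd
  positivity

/-- The discriminant composed with `ofComplex` has period one. -/
lemma disc_periodic : Function.Periodic (discriminant ∘ ofComplex) ((1 : ℝ) : ℂ) :=
  SlashInvariantFormClass.periodic_comp_ofComplex CuspForm.discriminant
    one_mem_strictPeriods_SL

lemma disc_mdiff : MDiff discriminant :=
  ModularFormClass.holo CuspForm.discriminant

lemma disc_bdd : IsBoundedAtImInfty discriminant :=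
  ModularFormClass.bdd_at_infty CuspForm.discriminant

lemma disc_coeff_zero : (qExpansion 1 discriminant).coeff 0 = 0 :=
  CuspFormClass.qExpansion_coeff_zero CuspForm.discriminant one_pos
    one_mem_strictPeriods_SL

/-- Value of `shiftDelta` as a value of the discriminant. -/
lemma shiftDelta_apply (a b d : ℕ) (ha : 0 < a) (hd : 0 < d) (τ : ℍ) :
    shiftDelta a b d τ =
      discriminant ⟨((a : ℂ) * (τ : ℂ) + (b : ℂ)) / (d : ℂ),
        im_pos_aux a b d ha hd τ τ.im_pos⟩ := by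
  unfold shiftDelta
  rw [ofComplex_apply_of_im_pos]

/-- The expansion of `shiftDelta a b d` in the parameter of period `h`. -/
lemma hasSum_shift (a b d : ℕ) (ha : 0 < a) (hd : 0 < d) (h : ℝ) (e : ℕ) (he : 0 < e) (ζ : ℂ)
    (hq : ∀ τ : ℍ, Function.Periodic.qParam 1 (((a : ℂ) * (τ : ℂ) + (b : ℂ)) / (d : ℂ)) =
      ζ * Function.Periodic.qParam h τ ^ e) (τ : ℍ) :
    HasSum (fun n : ℕ => (if e ∣ n then (qExpansion 1 discriminant).coeff (n / e) * ζ ^ (n / e)
      else 0) • Function.Periodic.qParam h τ ^ n) (shiftDelta a b d τ) := by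
  rw [shiftDelta_apply a b d ha hd τ]
  have hs := hasSum_qExpansion one_pos disc_periodic disc_mdiff disc_bdd
    ⟨((a : ℂ) * (τ : ℂ) + (b : ℂ)) / (d : ℂ), im_pos_aux a b d ha hd τ τ.im_pos⟩
  dsimp only at hs
  rw [hq τ] at hs
  have hinj : Function.Injective (fun m : ℕ ↦ e * m) := mul_right_injective₀ he.ne'
  refine (hinj.hasSum_iff ?_).mp ?_
  · intro x hx
    have : ¬ e ∣ x := by
      rintro ⟨k, rfl⟩
      exact hx ⟨k, rfl⟩
    simp [this]
  · convert hs using 1
    ext m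
    simp [Nat.mul_div_cancel_left _ he, mul_pow, pow_mul]
    ring

/-- Periodicity of `shiftDelta a b d`. -/
lemma shift_periodic (a b d : ℕ) (hd : 0 < d) (h : ℝ) (k : ℕ)
    (hk : (a : ℂ) * (h : ℂ) = (k : ℂ) * (d : ℂ)) :
    Function.Periodic (shiftDelta a b d ∘ ofComplex) (h : ℂ) := by
  intro w
  by_cases hw : 0 < w.im
  · have hw' : 0 < (w + (h : ℂ)).im := by simpa using hw
    simp only [Function.comp_apply, ofComplex_apply_of_im_pos hw', ofComplex_apply_of_im_pos hw]
    unfold shiftDelta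
    dsimp only
    have hd0 : (d : ℂ) ≠ 0 := by exact_mod_cast hd.ne'
    have key : ((a : ℂ) * (w + (h : ℂ)) + (b : ℂ)) / (d : ℂ)
        = ((a : ℂ) * w + (b : ℂ)) / (d : ℂ) + (k : ℂ) * ((1 : ℝ) : ℂ) := by
      rw [mul_add, hk]
      field_simp
      push_cast
      ring
    rw [key]
    exact (disc_periodic.nat_mul k) _
  · have hw1 : w.im ≤ 0 := not_lt.mp hw
    have hw' : (w + (h : ℂ)).im ≤ 0 := by simpa using hw1
    simp [ofComplex_apply_of_im_nonpos hw', ofComplex_apply_of_im_nonpos hw1]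

/-- Holomorphy of `shiftDelta a b d`. -/
lemma shift_mdiff (a b d : ℕ) (ha : 0 < a) (hd : 0 < d) : MDiff (shiftDelta a b d) := by
  rw [UpperHalfPlane.mdifferentiable_iff]
  have h1 : DifferentiableOn ℂ (discriminant ∘ ofComplex) {z | 0 < z.im} :=
    UpperHalfPlane.mdifferentiable_iff.mp disc_mdiff
  have h2 : DifferentiableOn ℂ (fun z : ℂ => ((a : ℂ) * z + (b : ℂ)) / (d : ℂ))
      {z | 0 < z.im} := by
    fun_prop
  have h3 : Set.MapsTo (fun z : ℂ => ((a : ℂ) * z + (b : ℂ)) / (d : ℂ))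
      {z | 0 < z.im} {z | 0 < z.im} :=
    fun z hz => im_pos_aux a b d ha hd z hz
  refine (h1.comp h2 h3).congr ?_
  intro z hz
  simp only [Function.comp_apply, shiftDelta, ofComplex_apply_of_im_pos hz]

/-- All analytic data of `shiftDelta a b d` for the period `h`. -/
lemma shift_coeff (a b d : ℕ) (ha : 0 < a) (hd : 0 < d) (h : ℝ) (hh : 0 < h) (e : ℕ)
    (he : 0 < e) (ζ : ℂ)
    (hq : ∀ τ : ℍ, Function.Periodic.qParam 1 (((a : ℂ) * (τ : ℂ) + (b : ℂ)) / (d : ℂ)) =
      ζ * Function.Periodic.qParam h τ ^ e)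
    (hper : Function.Periodic (shiftDelta a b d ∘ ofComplex) (h : ℂ)) :
    IsBoundedAtImInfty (shiftDelta a b d) ∧
    ∀ n : ℕ, (qExpansion h (shiftDelta a b d)).coeff n =
      if e ∣ n then (qExpansion 1 discriminant).coeff (n / e) * ζ ^ (n / e) else 0 := by
  have hsum := hasSum_shift a b d ha hd h e he ζ hq
  have hbdd : IsBoundedAtImInfty (shiftDelta a b d) :=
    isBoundedAtImInfty_of_hasSum_qExpansion hh hsum
  refine ⟨hbdd, fun n => ?_⟩
  have han : AnalyticAt ℂ (cuspFunction h (shiftDelta a b d)) 0 :=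
    analyticAt_cuspFunction_zero hh hper (shift_mdiff a b d ha hd) hbdd
  let _ : FunLike (ℍ → ℂ) ℍ ℂ := ⟨fun f => f, fun _ _ hfg => hfg⟩
  exact (qExpansion_coeff_unique (F := ℍ → ℂ) (shiftDelta a b d) hh han hsum n).symm

/-- The root of unity `zetaN N` has order dividing `N`. -/
lemma zetaN_pow (N : ℕ) (hN : 0 < N) : zetaN N ^ N = 1 := by
  unfold zetaN
  rw [← Complex.exp_nat_mul]
  have hN0 : (N : ℂ) ≠ 0 := by exact_mod_cast hN.ne'
  rw [mul_div_cancel₀ _ hN0]
  exact Complex.exp_two_pi_mul_I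

/-- The parameter of period one at the image point. -/
lemma qParam_shift (N a b d : ℕ) (had : a * d = N) (hN : 0 < N) (τ : ℍ) :
    Function.Periodic.qParam 1 (((a : ℂ) * (τ : ℂ) + (b : ℂ)) / (d : ℂ)) =
      zetaN N ^ (a * b) * Function.Periodic.qParam (N : ℝ) τ ^ (a ^ 2) := by
  have ha : a ≠ 0 := by rintro rfl; simp at had; omega
  have hd : d ≠ 0 := by rintro rfl; simp at had; omega
  have ha0 : (a : ℂ) ≠ 0 := by exact_mod_cast ha
  have hd0 : (d : ℂ) ≠ 0 := by exact_mod_cast hd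
  have hN' : (N : ℂ) = (a : ℂ) * (d : ℂ) := by rw [← had]; push_cast; ring
  unfold zetaN Function.Periodic.qParam
  rw [← Complex.exp_nat_mul, ← Complex.exp_nat_mul, ← Complex.exp_add]
  congr 1
  push_cast
  rw [hN']
  field_simp
  ring

end ShiftExpansion

theorem shiftDelta_isUnitLeading
    (hΔ : ∀ n : ℕ, ∃ m : ℤ, (qExpansion 1 discriminant).coeff n = (m : ℂ))
    (N a b d : ℕ) (had : a * d = N) (hN : 0 < N) (R : Subring ℂ) (hR : zetaN N ∈ R) :
    IsUnitLeading N R (shiftDelta a b d) (a ^ 2) := by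
  have ha : 0 < a := Nat.pos_of_ne_zero (by rintro rfl; simp at had; omega)
  have hd : 0 < d := Nat.pos_of_ne_zero (by rintro rfl; simp at had; omega)
  have hN' : (0 : ℝ) < (N : ℝ) := by exact_mod_cast hN
  have he : 0 < a ^ 2 := by positivity
  have hper : Function.Periodic (shiftDelta a b d ∘ ofComplex) ((N : ℝ) : ℂ) :=
    ShiftExpansion.shift_periodic a b d hd (N : ℝ) (a ^ 2) (by rw [← had]; push_cast; ring)
  obtain ⟨hbdd, hcoeff⟩ := ShiftExpansion.shift_coeff a b d ha hd (N : ℝ) hN' (a ^ 2) he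
    (zetaN N ^ (a * b)) (ShiftExpansion.qParam_shift N a b d had hN) hper
  refine { mdiff := ShiftExpansion.shift_mdiff a b d ha hd, periodic := hper, bdd := hbdd,
           coeff_mem := ?_, coeff_lt := ?_, unit := ?_ }
  · intro n
    rw [hcoeff n]
    split_ifs with h
    · obtain ⟨m, hm⟩ := hΔ (n / a ^ 2)
      rw [hm]
      exact R.mul_mem (intCast_mem R m) (R.pow_mem (R.pow_mem hR _) _)
    · exact R.zero_mem
  · intro n hn
    rw [hcoeff n]
    split_ifs with h
    · have hn0 : n = 0 := Nat.eq_zero_of_dvd_of_lt h hn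
      subst hn0
      simp [ShiftExpansion.disc_coeff_zero]
    · rfl
  · refine ⟨zetaN N ^ (a * b * (N - 1)), R.pow_mem hR _, ?_⟩
    rw [hcoeff (a ^ 2)]
    simp only [dvd_refl, if_true, Nat.div_self he, pow_one, discriminant_qExpansion_coeff_one,
      one_mul]
    rw [← pow_add]
    have hexp : a * b * (N - 1) + a * b = N * (a * b) := by
      obtain ⟨M, rfl⟩ : ∃ M, N = M + 1 := ⟨N - 1, by omega⟩
      simp
      ring
    rw [hexp, pow_mul, ShiftExpansion.zetaN_pow N hN, one_pow]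

theorem shiftDelta_level_qExpansion_int
    (hΔ : ∀ n : ℕ, ∃ m : ℤ, (qExpansion 1 discriminant).coeff n = (m : ℂ))
    (N : ℕ) (hN : 0 < N) (n : ℕ) :
    ∃ z : ℤ, (qExpansion 1 (shiftDelta N 0 1)).coeff n = (z : ℂ) := by
  have hper : Function.Periodic (shiftDelta N 0 1 ∘ ofComplex) ((1 : ℝ) : ℂ) :=
    ShiftExpansion.shift_periodic N 0 1 one_pos (1 : ℝ) N (by push_cast; ring)
  have hq : ∀ τ : ℍ, Function.Periodic.qParam 1
      (((N : ℂ) * (τ : ℂ) + ((0 : ℕ) : ℂ)) / ((1 : ℕ) : ℂ)) =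
      1 * Function.Periodic.qParam (1 : ℝ) τ ^ N := by
    intro τ
    unfold Function.Periodic.qParam
    rw [← Complex.exp_nat_mul, one_mul]
    congr 1
    push_cast
    ring
  obtain ⟨-, hcoeff⟩ := ShiftExpansion.shift_coeff N 0 1 hN one_pos (1 : ℝ) one_pos N hN 1
    hq hper
  rw [hcoeff n]
  split_ifs with h
  · obtain ⟨m, hm⟩ := hΔ (n / N)
    exact ⟨m, by rw [hm]; simp⟩
  · exact ⟨0, by simp⟩

end Fermat.Agent.S22
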