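import Fermat.Agent.S22.KeyOf
import Fermat.Agent.S22.DeltaInt
import Fermat.Agent.S22.Hermite
import Fermat.Agent.S22.ShiftExpansion
import Fermat.Agent.S23.LevelOne
import Fermat.Agent.S23.DeltaN

/-!
The key coefficient statement for `S_k(Γ₀(N))`: every `q`-expansion coefficient functional is
a complex combination of finitely many sequences with values in `ℤ[ζ_N]`.
-/

set_option autoImplicit false

namespace Fermat.Agent.S22

open UpperHalfPlane ModularForm
open Fermat.Agent.S23
open scoped MatrixGroups ModularForm Manifold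

theorem key (N : ℕ) [NeZero N] (k : ℤ) (R : Subring ℂ) (hR : zetaN N ∈ R) :
    ∃ ρ : (ℍ → ℂ) → ℕ → ℂ, (∀ W n, ρ W n ∈ R) ∧
      ∀ f : CuspForm (CongruenceSubgroup.Gamma0 N) k,
        ∃ (ι : Type) (T : Finset ι) (lam : ι → ℂ) (W : ι → ℍ → ℂ),
          ∀ n : ℕ, (qExpansion 1 f).coeff n = ∑ i ∈ T, lam i * ρ (W i) n := by
  have hN : 0 < N := Nat.pos_of_ne_zero (NeZero.ne N)
  have hg : ⇑(DeltaN N) = shiftDelta N 0 1 := by
    rw [coe_DeltaN]
    funext τ
    simp [DeltaNFun, shiftDelta]
  refine key_of N k R (DeltaN N) hg (slash_shiftDelta N)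
    (fun a b d had => shiftDelta_isUnitLeading discriminant_qExpansion_int N a b d had hN R hR)
    (fun w F => ?_)
  obtain ⟨m, a, b, hb, hF⟩ := levelOne_exists_int_decomp w F
  exact ⟨m, a, b, fun i n => hb i n, hF⟩

end Fermat.Agent.S22
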