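import Mathlib
import Fermat.Prelude.Def_CuspForm_HeckeAlgebra

set_option autoImplicit false

namespace Fermat.Agent.S22

open UpperHalfPlane
open scoped MatrixGroups ModularForm Manifold

/-- Functions on the upper half plane that are holomorphic, `N`-periodic, bounded at `i∞`
and whose `q`-expansion at period `N` has all coefficients in the subring `R`. -/
structure IsGood (N : ℕ) (R : Subring ℂ) (F : ℍ → ℂ) : Prop where
  mdiff : MDiff F
  periodic : Function.Periodic (F ∘ ofComplex) (N : ℝ)
  bdd : IsBoundedAtImInfty F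
  coeff_mem : ∀ n : ℕ, (qExpansion (N : ℝ) F).coeff n ∈ R

/-- A good function whose period-`N` expansion starts in degree `e` with a coefficient that
is invertible in `R`. -/
structure IsUnitLeading (N : ℕ) (R : Subring ℂ) (F : ℍ → ℂ) (e : ℕ) : Prop
    extends IsGood N R F where
  coeff_lt : ∀ n : ℕ, n < e → (qExpansion (N : ℝ) F).coeff n = 0
  unit : ∃ u ∈ R, u * (qExpansion (N : ℝ) F).coeff e = 1

/-- The function `τ ↦ Δ((a τ + b) / d)`. -/
noncomputable def shiftDelta (a b d : ℕ) : ℍ → ℂ :=
  fun τ => ModularForm.discriminant (ofComplex (((a : ℂ) * (τ : ℂ) + (b : ℂ)) / (d : ℂ)))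

/-- The primitive `N`-th root of unity `exp(2πi/N)`. -/
noncomputable def zetaN (N : ℕ) : ℂ := Complex.exp (2 * (Real.pi : ℂ) * Complex.I / (N : ℂ))

end Fermat.Agent.S22
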