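import Fermat.Agent.S22.Defs
import Fermat.Prelude.Thm_UpperHalfPlane_qExpansion_coeff_nat_mul
import Fermat.Prelude.Thm_UpperHalfPlane_qExpansion_prod

/-!
Algebra of holomorphic `N`-periodic functions bounded at `i∞` and of their `q`-expansions
with coefficients in a subring `R ⊆ ℂ`.
-/

set_option autoImplicit false

namespace Fermat.Agent.S22.KeyAux

open UpperHalfPlane
open scoped MatrixGroups ModularForm Manifold

/-- Holomorphic, `N`-periodic and bounded at `i∞`. -/
structure IsPer (N : ℕ) (F : ℍ → ℂ) : Prop where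
  mdiff : MDiff F
  periodic : Function.Periodic (F ∘ ofComplex) (N : ℝ)
  bdd : IsBoundedAtImInfty F

variable {N : ℕ} {R : Subring ℂ} {F G : ℍ → ℂ}

theorem IsPer.analyticAt (hN : 0 < N) (h : IsPer N F) :
    AnalyticAt ℂ (cuspFunction (N : ℝ) F) 0 :=
  analyticAt_cuspFunction_zero (by exact_mod_cast hN) h.periodic h.mdiff h.bdd

theorem isPer_const (c : ℂ) : IsPer N (fun _ : ℍ => c) where
  mdiff := mdifferentiable_const
  periodic := fun _ => rfl
  bdd := Filter.const_boundedAtFilter _ c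

theorem isPer_zero : IsPer N (0 : ℍ → ℂ) := isPer_const 0

theorem isPer_one : IsPer N (1 : ℍ → ℂ) := isPer_const 1

theorem IsPer.add (hF : IsPer N F) (hG : IsPer N G) : IsPer N (F + G) where
  mdiff := hF.mdiff.add hG.mdiff
  periodic := fun x => by
    have h1 := hF.periodic x
    have h2 := hG.periodic x
    simp only [Function.comp_apply, Pi.add_apply] at h1 h2 ⊢
    rw [h1, h2]
  bdd := hF.bdd.add hG.bdd

theorem IsPer.neg (hF : IsPer N F) : IsPer N (-F) where
  mdiff := hF.mdiff.neg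
  periodic := fun x => by
    have h1 := hF.periodic x
    simp only [Function.comp_apply, Pi.neg_apply] at h1 ⊢
    rw [h1]
  bdd := hF.bdd.neg

theorem IsPer.sub (hF : IsPer N F) (hG : IsPer N G) : IsPer N (F - G) := by
  rw [sub_eq_add_neg]
  exact hF.add hG.neg

theorem IsPer.mul (hF : IsPer N F) (hG : IsPer N G) : IsPer N (F * G) where
  mdiff := hF.mdiff.mul hG.mdiff
  periodic := fun x => by
    have h1 := hF.periodic x
    have h2 := hG.periodic x
    simp only [Function.comp_apply, Pi.mul_apply] at h1 h2 ⊢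
    rw [h1, h2]
  bdd := hF.bdd.mul hG.bdd

theorem IsPer.smul (hF : IsPer N F) (c : ℂ) : IsPer N (c • F) := by
  have : c • F = (fun _ : ℍ => c) * F := by
    ext τ
    simp
  rw [this]
  exact (isPer_const c).mul hF

theorem isPer_sum {ι : Type*} (s : Finset ι) (F : ι → ℍ → ℂ) (h : ∀ i ∈ s, IsPer N (F i)) :
    IsPer N (∑ i ∈ s, F i) := by
  classical
  induction s using Finset.induction_on with
  | empty => simpa using (isPer_zero (N := N))
  | insert a s ha ih =>
    rw [Finset.sum_insert ha]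
    exact (h a (Finset.mem_insert_self a s)).add
      (ih fun i hi => h i (Finset.mem_insert_of_mem hi))

theorem isPer_prod {ι : Type*} (s : Finset ι) (F : ι → ℍ → ℂ) (h : ∀ i ∈ s, IsPer N (F i)) :
    IsPer N (∏ i ∈ s, F i) := by
  classical
  induction s using Finset.induction_on with
  | empty => simpa using (isPer_one (N := N))
  | insert a s ha ih =>
    rw [Finset.prod_insert ha]
    exact (h a (Finset.mem_insert_self a s)).mul
      (ih fun i hi => h i (Finset.mem_insert_of_mem hi))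

theorem IsPer.qExpansion_add (hN : 0 < N) (hF : IsPer N F) (hG : IsPer N G) :
    qExpansion (N : ℝ) (F + G) = qExpansion (N : ℝ) F + qExpansion (N : ℝ) G :=
  UpperHalfPlane.qExpansion_add (hF.analyticAt hN) (hG.analyticAt hN)

theorem IsPer.qExpansion_sub (hN : 0 < N) (hF : IsPer N F) (hG : IsPer N G) :
    qExpansion (N : ℝ) (F - G) = qExpansion (N : ℝ) F - qExpansion (N : ℝ) G :=
  UpperHalfPlane.qExpansion_sub (hF.analyticAt hN) (hG.analyticAt hN)

theorem IsPer.qExpansion_neg (hN : 0 < N) (hF : IsPer N F) :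
    qExpansion (N : ℝ) (-F) = -qExpansion (N : ℝ) F :=
  UpperHalfPlane.qExpansion_neg (hF.analyticAt hN)

theorem IsPer.qExpansion_mul (hN : 0 < N) (hF : IsPer N F) (hG : IsPer N G) :
    qExpansion (N : ℝ) (F * G) = qExpansion (N : ℝ) F * qExpansion (N : ℝ) G :=
  UpperHalfPlane.qExpansion_mul (hF.analyticAt hN) (hG.analyticAt hN)

theorem IsPer.qExpansion_smul (hN : 0 < N) (hF : IsPer N F) (c : ℂ) :
    qExpansion (N : ℝ) (c • F) = c • qExpansion (N : ℝ) F :=
  UpperHalfPlane.qExpansion_smul (hF.analyticAt hN) c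

theorem qExpansion_sum (hN : 0 < N) {ι : Type*} (s : Finset ι) (F : ι → ℍ → ℂ)
    (h : ∀ i ∈ s, IsPer N (F i)) :
    qExpansion (N : ℝ) (∑ i ∈ s, F i) = ∑ i ∈ s, qExpansion (N : ℝ) (F i) := by
  classical
  induction s using Finset.induction_on with
  | empty => simpa using UpperHalfPlane.qExpansion_zero (N : ℝ)
  | insert a s ha ih =>
    rw [Finset.sum_insert ha, Finset.sum_insert ha,
      (h a (Finset.mem_insert_self a s)).qExpansion_add hN
        (isPer_sum s F fun i hi => h i (Finset.mem_insert_of_mem hi)),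
      ih fun i hi => h i (Finset.mem_insert_of_mem hi)]

theorem qExpansion_prod (hN : 0 < N) {ι : Type*} (s : Finset ι) (F : ι → ℍ → ℂ)
    (h : ∀ i ∈ s, IsPer N (F i)) :
    qExpansion (N : ℝ) (∏ i ∈ s, F i) = ∏ i ∈ s, qExpansion (N : ℝ) (F i) :=
  UpperHalfPlane.qExpansion_prod s fun i hi => (h i hi).analyticAt hN

/-- The subring of power series over `ℂ` all of whose coefficients lie in `R`. -/
noncomputable def RS (R : Subring ℂ) : Subring (PowerSeries ℂ) :=
  (PowerSeries.map R.subtype).range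

theorem mem_RS_iff {A : PowerSeries ℂ} : A ∈ RS R ↔ ∀ n, PowerSeries.coeff n A ∈ R := by
  constructor
  · rintro ⟨A', rfl⟩ n
    rw [PowerSeries.coeff_map]
    exact (PowerSeries.coeff n A').2
  · intro h
    refine ⟨PowerSeries.mk fun n => ⟨PowerSeries.coeff n A, h n⟩, ?_⟩
    ext n
    rw [PowerSeries.coeff_map, PowerSeries.coeff_mk]
    rfl

theorem C_mem_RS {c : ℂ} (hc : c ∈ R) : PowerSeries.C c ∈ RS R := by
  rw [mem_RS_iff]
  intro n
  rw [PowerSeries.coeff_C]
  split_ifs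
  · exact hc
  · exact R.zero_mem

theorem smul_mem_RS {c : ℂ} (hc : c ∈ R) {A : PowerSeries ℂ} (hA : A ∈ RS R) :
    c • A ∈ RS R := by
  rw [mem_RS_iff] at hA ⊢
  intro n
  rw [PowerSeries.coeff_smul]
  exact R.mul_mem hc (hA n)

theorem isGood_iff : IsGood N R F ↔ IsPer N F ∧ qExpansion (N : ℝ) F ∈ RS R := by
  rw [mem_RS_iff]
  constructor
  · intro h
    exact ⟨⟨h.mdiff, h.periodic, h.bdd⟩, h.coeff_mem⟩
  · rintro ⟨h1, h2⟩
    exact ⟨h1.mdiff, h1.periodic, h1.bdd, h2⟩

theorem isPer_of_isGood (h : IsGood N R F) : IsPer N F := (isGood_iff.mp h).1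

theorem isGood_const {c : ℂ} (hc : c ∈ R) : IsGood N R (fun _ : ℍ => c) := by
  rw [isGood_iff]
  refine ⟨isPer_const c, ?_⟩
  have h1 : (fun _ : ℍ => c) = c • (1 : ℍ → ℂ) := by
    ext τ
    simp
  have h2 : qExpansion (N : ℝ) (c • (1 : ℍ → ℂ)) = c • qExpansion (N : ℝ) (1 : ℍ → ℂ) := by
    ext m
    have h3 : cuspFunction (N : ℝ) (c • (1 : ℍ → ℂ)) = c • cuspFunction (N : ℝ) (1 : ℍ → ℂ) := by
      have h4 : cuspFunction (N : ℝ) (1 : ℍ → ℂ) = 1 := by
        ext q
        rcases eq_or_ne q 0 with rfl | hq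
        · simpa [cuspFunction, Function.Periodic.cuspFunction] using! tendsto_const_nhds.limUnder_eq
        · simp [cuspFunction, Function.Periodic.cuspFunction_eq_of_nonzero _ _ hq]
      apply cuspFunction_smul
      rw [h4]
      exact continuousAt_const
    simp [qExpansion_coeff, h3, iteratedDeriv_const_smul_field, mul_left_comm]
  rw [h1, h2, UpperHalfPlane.qExpansion_one]
  exact smul_mem_RS hc (RS R).one_mem

theorem isGood_add (hN : 0 < N) (hF : IsGood N R F) (hG : IsGood N R G) :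
    IsGood N R (F + G) := by
  rw [isGood_iff] at *
  refine ⟨hF.1.add hG.1, ?_⟩
  rw [hF.1.qExpansion_add hN hG.1]
  exact (RS R).add_mem hF.2 hG.2

theorem isGood_neg (hN : 0 < N) (hF : IsGood N R F) : IsGood N R (-F) := by
  rw [isGood_iff] at *
  refine ⟨hF.1.neg, ?_⟩
  rw [hF.1.qExpansion_neg hN]
  exact (RS R).neg_mem hF.2

theorem isGood_mul (hN : 0 < N) (hF : IsGood N R F) (hG : IsGood N R G) :
    IsGood N R (F * G) := by
  rw [isGood_iff] at *
  refine ⟨hF.1.mul hG.1, ?_⟩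
  rw [hF.1.qExpansion_mul hN hG.1]
  exact (RS R).mul_mem hF.2 hG.2

theorem isGood_smul (hN : 0 < N) {c : ℂ} (hc : c ∈ R) (hF : IsGood N R F) :
    IsGood N R (c • F) := by
  rw [isGood_iff] at *
  refine ⟨hF.1.smul c, ?_⟩
  rw [hF.1.qExpansion_smul hN]
  exact smul_mem_RS hc hF.2

theorem isGood_prod (hN : 0 < N) {ι : Type*} (s : Finset ι) (F : ι → ℍ → ℂ)
    (h : ∀ i ∈ s, IsGood N R (F i)) : IsGood N R (∏ i ∈ s, F i) := by
  rw [isGood_iff]
  refine ⟨isPer_prod s F fun i hi => isPer_of_isGood (h i hi), ?_⟩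
  rw [qExpansion_prod hN s F fun i hi => isPer_of_isGood (h i hi)]
  exact (RS R).prod_mem fun i hi => (isGood_iff.mp (h i hi)).2

/-- A `1`-periodic function whose `q`-expansion has coefficients in `R` is good at period
`N`. -/
theorem isGood_of_one (hN : 0 < N) (hper : Function.Periodic (F ∘ ofComplex) 1)
    (hhol : MDiff F) (hbdd : IsBoundedAtImInfty F)
    (hc : ∀ n, (qExpansion 1 F).coeff n ∈ R) : IsGood N R F where
  mdiff := hhol
  periodic := by simpa using hper.nat_mul N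
  bdd := hbdd
  coeff_mem n := by
    have h := UpperHalfPlane.qExpansion_coeff_nat_mul (h := 1) one_pos hper hhol hbdd hN n
    rw [mul_one] at h
    rw [h]
    split_ifs
    · exact hc _
    · exact R.zero_mem

/-- The coefficients of the period-one expansion among those of the period-`N` expansion. -/
theorem qExpansion_one_coeff (hN : 0 < N) (hper : Function.Periodic (F ∘ ofComplex) 1)
    (hhol : MDiff F) (hbdd : IsBoundedAtImInfty F) (n : ℕ) :
    (qExpansion 1 F).coeff n = (qExpansion (N : ℝ) F).coeff (N * n) := by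
  have h := UpperHalfPlane.qExpansion_coeff_nat_mul (h := 1) one_pos hper hhol hbdd hN (N * n)
  rw [mul_one] at h
  rw [h, if_pos (dvd_mul_right N n), Nat.mul_div_cancel_left n hN]

/-- `A = X ^ e * V` with `V` a unit of `R⟦X⟧`. -/
def ULS (R : Subring ℂ) (e : ℕ) (A : PowerSeries ℂ) : Prop :=
  ∃ V : (PowerSeries R)ˣ, A = PowerSeries.X ^ e * PowerSeries.map R.subtype (V : PowerSeries R)

theorem ULS.mul {e e' : ℕ} {A B : PowerSeries ℂ} (hA : ULS R e A) (hB : ULS R e' B) :
    ULS R (e + e') (A * B) := by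
  obtain ⟨V, rfl⟩ := hA
  obtain ⟨W, rfl⟩ := hB
  refine ⟨V * W, ?_⟩
  rw [Units.val_mul, map_mul, pow_add]
  ring

theorem uls_one : ULS R 0 1 := ⟨1, by simp⟩

theorem uls_prod {ι : Type*} (s : Finset ι) (e : ι → ℕ) (A : ι → PowerSeries ℂ)
    (h : ∀ i ∈ s, ULS R (e i) (A i)) : ULS R (∑ i ∈ s, e i) (∏ i ∈ s, A i) := by
  classical
  induction s using Finset.induction_on with
  | empty => simpa using (uls_one (R := R))
  | insert a s ha ih =>
    rw [Finset.sum_insert ha, Finset.prod_insert ha]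
    exact (h a (Finset.mem_insert_self a s)).mul
      (ih fun i hi => h i (Finset.mem_insert_of_mem hi))

theorem ULS.smul_sub {e e' : ℕ} {A B : PowerSeries ℂ} (he : e < e') {c : ℂ} (hc : c ∈ R)
    (hA : ULS R e' A) (hB : ULS R e B) : ULS R e (c • A - B) := by
  obtain ⟨V, rfl⟩ := hA
  obtain ⟨W, rfl⟩ := hB
  have hu : IsUnit (PowerSeries.C (⟨c, hc⟩ : R) * PowerSeries.X ^ (e' - e) * (V : PowerSeries R)
      - (W : PowerSeries R)) := by
    rw [PowerSeries.isUnit_iff_constantCoeff]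
    have h0 : PowerSeries.constantCoeff (PowerSeries.C (⟨c, hc⟩ : R) * PowerSeries.X ^ (e' - e) *
        (V : PowerSeries R) - (W : PowerSeries R)) =
        - PowerSeries.constantCoeff (W : PowerSeries R) := by
      simp [zero_pow (Nat.sub_ne_zero_of_lt he)]
    rw [h0]
    exact (PowerSeries.isUnit_iff_constantCoeff.mp W.isUnit).neg
  refine ⟨hu.unit, ?_⟩
  rw [IsUnit.unit_spec]
  obtain ⟨j, rfl⟩ : ∃ j, e' = e + j := ⟨e' - e, by omega⟩
  rw [Nat.add_sub_cancel_left, pow_add, PowerSeries.smul_eq_C_mul]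
  simp only [map_sub, map_mul, map_pow, PowerSeries.map_X, PowerSeries.map_C]
  have hcc : R.subtype (⟨c, hc⟩ : R) = c := rfl
  rw [hcc]
  ring

theorem ULS.exists_inv {e : ℕ} {A : PowerSeries ℂ} (h : ULS R e A) :
    ∃ B ∈ RS R, A * B = PowerSeries.X ^ e := by
  obtain ⟨V, rfl⟩ := h
  refine ⟨PowerSeries.map R.subtype ((V⁻¹ : (PowerSeries R)ˣ) : PowerSeries R), ⟨_, rfl⟩, ?_⟩
  rw [mul_assoc, ← map_mul, Units.mul_inv, map_one, mul_one]

theorem uls_of_isUnitLeading {e : ℕ} (h : IsUnitLeading N R F e) :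
    ULS R e (qExpansion (N : ℝ) F) := by
  obtain ⟨A', hA'⟩ : qExpansion (N : ℝ) F ∈ RS R := mem_RS_iff.mpr h.coeff_mem
  have hdvd : PowerSeries.X ^ e ∣ A' := by
    rw [PowerSeries.X_pow_dvd_iff]
    intro m hm
    have h1 := h.coeff_lt m hm
    rw [← hA', PowerSeries.coeff_map] at h1
    exact Subtype.ext h1
  obtain ⟨V, rfl⟩ := hdvd
  have hu : IsUnit V := by
    rw [PowerSeries.isUnit_iff_constantCoeff]
    obtain ⟨u, hu, hu1⟩ := h.unit
    have hc : PowerSeries.coeff e (qExpansion (N : ℝ) F) =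
        ((PowerSeries.constantCoeff V : R) : ℂ) := by
      rw [← hA', PowerSeries.coeff_map]
      have h2 := PowerSeries.coeff_X_pow_mul V e 0
      rw [zero_add] at h2
      rw [h2, PowerSeries.coeff_zero_eq_constantCoeff]
      rfl
    rw [hc] at hu1
    have h3 : (⟨u, hu⟩ : R) * PowerSeries.constantCoeff V = 1 := Subtype.ext hu1
    exact IsUnit.of_mul_eq_one _ (by rw [mul_comm]; exact h3)
  refine ⟨hu.unit, ?_⟩
  rw [IsUnit.unit_spec, ← hA', map_mul, map_pow, PowerSeries.map_X]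

/-- `F` is holomorphic, `N`-periodic, bounded at `i∞`, and its period-`N` expansion is `X ^ e`
times a unit of `R⟦X⟧`. -/
def IsUL (N : ℕ) (R : Subring ℂ) (F : ℍ → ℂ) (e : ℕ) : Prop :=
  IsPer N F ∧ ULS R e (qExpansion (N : ℝ) F)

theorem isUL_of_isUnitLeading {e : ℕ} (h : IsUnitLeading N R F e) : IsUL N R F e :=
  ⟨⟨h.mdiff, h.periodic, h.bdd⟩, uls_of_isUnitLeading h⟩

theorem IsUL.smul_sub (hN : 0 < N) {e e' : ℕ} {H : ℍ → ℂ} (he : e < e') {c : ℂ} (hc : c ∈ R)
    (hH : IsUL N R H e') (hG : IsUL N R G e) : IsUL N R (c • H - G) e := by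
  refine ⟨(hH.1.smul c).sub hG.1, ?_⟩
  rw [(hH.1.smul c).qExpansion_sub hN hG.1, hH.1.qExpansion_smul hN]
  exact hH.2.smul_sub he hc hG.2

theorem isUL_prod (hN : 0 < N) {ι : Type*} (s : Finset ι) (e : ι → ℕ) (F : ι → ℍ → ℂ)
    (h : ∀ i ∈ s, IsUL N R (F i) (e i)) : IsUL N R (∏ i ∈ s, F i) (∑ i ∈ s, e i) := by
  refine ⟨isPer_prod s F fun i hi => (h i hi).1, ?_⟩
  rw [qExpansion_prod hN s F fun i hi => (h i hi).1]
  exact uls_prod s e _ fun i hi => (h i hi).2

end Fermat.Agent.S22.KeyAux
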