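import Fermat.Agent.S22.Defs
import Fermat.Agent.S23.Translates

set_option autoImplicit false

namespace Fermat.Agent.S22

open UpperHalfPlane ModularForm SlashInvariantForm Matrix.SpecialLinearGroup
open Fermat.Agent.S23
open scoped MatrixGroups ModularForm Manifold

namespace Lagrange

/-- A coset represented by an element of `Γ₀(N)` is the trivial coset. -/
theorem mk_slElt_eq_one (N : ℕ) (γ : SL(2, ℤ)) (hγ : γ ∈ CongruenceSubgroup.Gamma0 N) :
    (QuotientGroup.mk (slElt γ) : Q N) = QuotientGroup.mk 1 := by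
  rw [QuotientGroup.eq]
  rw [Subgroup.mem_subgroupOf]
  refine ⟨γ⁻¹, inv_mem hγ, ?_⟩
  simp [slElt]

/-- The pointwise product expansion used in the Lagrange identity. -/
theorem prod_sub_expand {ι : Type*} [DecidableEq ι] (S : Finset ι) (d G : ι → ℂ) (x : ℂ) :
    ∏ q ∈ S, (d q * x - G q) =
      ∑ t ∈ S.powerset, ((∏ q ∈ t, d q) * ∏ q ∈ S \ t, (- G q)) * x ^ t.card := by
  have h1 : ∏ q ∈ S, (d q * x - G q) = ∏ q ∈ S, (d q * x + (- G q)) :=
    Finset.prod_congr rfl fun q _ => sub_eq_add_neg _ _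
  rw [h1, Finset.prod_add]
  refine Finset.sum_congr rfl fun t _ => ?_
  rw [Finset.prod_mul_distrib, Finset.prod_const]
  ring

end Lagrange

theorem tr_eq_shiftDelta (N : ℕ) [NeZero N]
    (hH : ∀ γ : SL(2, ℤ), ∃ a b d : ℕ, a * d = N ∧
      (γ ∉ CongruenceSubgroup.Gamma0 N → a < N) ∧
      (shiftDelta N 0 1) ∣[(12 : ℤ)] (mapGL ℝ γ) =
        fun τ => ((d : ℂ) ^ 12)⁻¹ * shiftDelta a b d τ)
    (g : ModularForm (Γ0 N) 12) (hg : ⇑g = shiftDelta N 0 1) (q : Q N) :
    ∃ a b d : ℕ, a * d = N ∧ (q ≠ (QuotientGroup.mk 1 : Q N) → a < N) ∧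
      tr g q = fun τ => ((d : ℂ) ^ 12)⁻¹ * shiftDelta a b d τ := by
  induction q using Quotient.inductionOn with
  | h r =>
    obtain ⟨γ, rfl⟩ := exists_slElt_eq r
    obtain ⟨a, b, d, had, hlt, heq⟩ := hH γ⁻¹
    refine ⟨a, b, d, had, fun hne => hlt fun hmem => hne ?_, ?_⟩
    · have hγ : γ ∈ CongruenceSubgroup.Gamma0 N := by
        have := inv_mem hmem
        rwa [inv_inv] at this
      exact Lagrange.mk_slElt_eq_one N γ hγ
    · have h1 : tr g (Quotient.mk _ (slElt γ)) = (g : ℍ → ℂ) ∣[(12 : ℤ)] (mapGL ℝ γ)⁻¹ := rfl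
      rw [h1, ← map_inv, hg]
      exact heq

theorem lagrange_identity (N : ℕ) [NeZero N] [DecidableEq (Q N)] (k : ℤ)
    (f : CuspForm (Γ0 N) k) (g : ModularForm (Γ0 N) 12)
    (d : Q N → ℂ) (G : Q N → ℍ → ℂ)
    (hG : ∀ q : Q N, q ≠ QuotientGroup.mk 1 → ∀ z, d q * tr g q z = G q z) :
    ∃ F : (m : ℕ) → ModularForm 𝒮ℒ (k + 12 * (m : ℤ)),
      ∀ z : ℍ, f z * ∏ q ∈ Finset.univ.erase (QuotientGroup.mk 1 : Q N), (d q * g z - G q z) =
        ∑ t ∈ (Finset.univ.erase (QuotientGroup.mk 1 : Q N)).powerset,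
          ((∏ q ∈ t, d q) * ∏ q ∈ Finset.univ.erase (QuotientGroup.mk 1 : Q N) \ t, (- G q z)) *
            F t.card z := by
  have hF : ∀ m : ℕ, ∃ F : ModularForm 𝒮ℒ (k + 12 * (m : ℤ)),
      ∀ z, F z = ∑ q, tr f q z * tr g q z ^ m := by
    intro m
    obtain ⟨F, hF⟩ := ((isEquivFamily_tr f).mul ((isEquivFamily_tr g).pow m)).exists_sum
    exact ⟨F, fun z => by rw [hF z]; rfl⟩
  choose F hF using hF
  refine ⟨F, fun z => ?_⟩
  set q₁ : Q N := QuotientGroup.mk 1 with hq₁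
  set S : Finset (Q N) := Finset.univ.erase q₁ with hS
  -- the sum over all cosets collapses to the trivial coset
  have hcollapse : ∑ q' : Q N, tr f q' z * ∏ q ∈ S, (d q * tr g q' z - G q z) =
      f z * ∏ q ∈ S, (d q * g z - G q z) := by
    rw [Finset.sum_eq_single q₁]
    · rw [hq₁, tr_one, tr_one]
    · intro q' _ hq'
      have hmem : q' ∈ S := Finset.mem_erase.mpr ⟨hq', Finset.mem_univ _⟩
      have hzero : d q' * tr g q' z - G q' z = 0 := by
        rw [hG q' hq' z, sub_self]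
      rw [Finset.prod_eq_zero hmem hzero, mul_zero]
    · intro h
      exact absurd (Finset.mem_univ _) h
  rw [← hcollapse]
  simp_rw [Lagrange.prod_sub_expand S d (fun q => G q z), Finset.mul_sum]
  rw [Finset.sum_comm]
  refine Finset.sum_congr rfl fun t _ => ?_
  rw [hF t.card z, Finset.mul_sum]
  refine Finset.sum_congr rfl fun q' _ => ?_
  ring

end Fermat.Agent.S22
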