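import Fermat.Agent.S22.Good
import Fermat.Agent.S22.Lagrange
import Fermat.Agent.S23.QF

/-!
The key coefficient statement for `S_k(Γ₀(N))`, assuming the facts about `Δ(N τ)`, its
translates and level one forms as hypotheses.
-/

set_option autoImplicit false

namespace Fermat.Agent.S22

open UpperHalfPlane ModularForm SlashInvariantForm Matrix.SpecialLinearGroup
open Fermat.Agent.S23 Fermat.Agent.S22.KeyAux
open scoped MatrixGroups ModularForm Manifold

theorem key_of (N : ℕ) [NeZero N] (k : ℤ) (R : Subring ℂ)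
    (g : ModularForm (Γ0 N) 12) (hg : ⇑g = shiftDelta N 0 1)
    (hH : ∀ γ : SL(2, ℤ), ∃ a b d : ℕ, a * d = N ∧
      (γ ∉ CongruenceSubgroup.Gamma0 N → a < N) ∧
      (shiftDelta N 0 1) ∣[(12 : ℤ)] (mapGL ℝ γ) =
        fun τ => ((d : ℂ) ^ 12)⁻¹ * shiftDelta a b d τ)
    (hSD : ∀ a b d : ℕ, a * d = N → IsUnitLeading N R (shiftDelta a b d) (a ^ 2))
    (hL1 : ∀ (w : ℤ) (F : ModularForm 𝒮ℒ w), ∃ (m : ℕ) (a : Fin m → ℂ)
        (b : Fin m → ModularForm 𝒮ℒ w),
        (∀ i n, ∃ z : ℤ, (qExpansion 1 (b i)).coeff n = (z : ℂ)) ∧ F = ∑ i, a i • b i) :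
    ∃ ρ : (ℍ → ℂ) → ℕ → ℂ, (∀ W n, ρ W n ∈ R) ∧
      ∀ f : CuspForm (CongruenceSubgroup.Gamma0 N) k,
        ∃ (ι : Type) (T : Finset ι) (lam : ι → ℂ) (W : ι → ℍ → ℂ),
          ∀ n : ℕ, (qExpansion 1 f).coeff n = ∑ i ∈ T, lam i * ρ (W i) n := by
  classical
  have hN : 0 < N := Nat.pos_of_ne_zero (NeZero.ne N)
  choose a b d had halt htr using fun q : Q N => tr_eq_shiftDelta N hH g hg q
  set S : Finset (Q N) := Finset.univ.erase (QuotientGroup.mk 1 : Q N) with hS
  let G : Q N → ℍ → ℂ := fun q => shiftDelta (a q) (b q) (d q)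
  let D : Q N → ℂ := fun q => (d q : ℂ) ^ 12
  have hd0 : ∀ q, (d q : ℂ) ≠ 0 := by
    intro q h0
    have h1 : d q = 0 := by exact_mod_cast h0
    have h2 := had q
    rw [h1, mul_zero] at h2
    exact (NeZero.ne N) h2.symm
  have hDR : ∀ q, D q ∈ R := fun q => R.pow_mem (natCast_mem R (d q)) 12
  have hG : ∀ q : Q N, q ≠ QuotientGroup.mk 1 → ∀ z, D q * tr g q z = G q z := by
    intro q _ z
    rw [htr q]
    show (d q : ℂ) ^ 12 * (((d q : ℂ) ^ 12)⁻¹ * shiftDelta (a q) (b q) (d q) z) = _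
    rw [← mul_assoc, mul_inv_cancel₀ (pow_ne_zero 12 (hd0 q)), one_mul]
  have hgUL : IsUL N R (g : ℍ → ℂ) (N ^ 2) := by
    rw [hg]
    exact isUL_of_isUnitLeading (hSD N 0 1 (mul_one N))
  have hGgood : ∀ q, IsGood N R (G q) := fun q => (hSD _ _ _ (had q)).toIsGood
  let U : ℍ → ℂ := ∏ q ∈ S, (D q • (g : ℍ → ℂ) - G q)
  have hU : IsUL N R U (∑ q ∈ S, a q ^ 2) := by
    refine isUL_prod hN S _ _ fun q hq => ?_
    have hq' : q ≠ QuotientGroup.mk 1 := Finset.ne_of_mem_erase hq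
    exact IsUL.smul_sub hN (Nat.pow_lt_pow_left (halt q hq') two_ne_zero) (hDR q) hgUL
      (isUL_of_isUnitLeading (hSD _ _ _ (had q)))
  obtain ⟨Vinv, hVinv, hUV⟩ := hU.2.exists_inv
  refine ⟨fun W n => if IsGood N R W then
      PowerSeries.coeff (N * n + ∑ q ∈ S, a q ^ 2) (qExpansion (N : ℝ) W * Vinv) else 0, ?_, ?_⟩
  · intro W n
    dsimp only
    split_ifs with hW
    · exact mem_RS_iff.mp ((RS R).mul_mem (isGood_iff.mp hW).2 hVinv) _
    · exact R.zero_mem
  · intro f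
    obtain ⟨Fm, hFm⟩ := lagrange_identity N k f g D G hG
    choose m coef bas hbas hdecomp using fun j : ℕ => hL1 (k + 12 * (j : ℤ)) (Fm j)
    let c : Finset (Q N) → ℍ → ℂ := fun t => (∏ q ∈ t, D q) • ∏ q ∈ S \ t, (- G q)
    have hc : ∀ t, IsGood N R (c t) := fun t =>
      isGood_smul hN (R.prod_mem fun q _ => hDR q)
        (isGood_prod hN _ _ fun q _ => isGood_neg hN (hGgood q))
    have hbasgood : ∀ j i, IsGood N R (bas j i : ℍ → ℂ) := by
      intro j i
      have hqf := isQF_of_levelOne (bas j i)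
      refine isGood_of_one hN hqf.per hqf.holo hqf.bdd fun n => ?_
      obtain ⟨z, hz⟩ := hbas j i n
      rw [hz]
      exact intCast_mem R z
    let W : (Σ t : Finset (Q N), Fin (m t.card)) → ℍ → ℂ :=
      fun x => c x.1 * (bas x.1.card x.2 : ℍ → ℂ)
    have hW : ∀ x, IsGood N R (W x) := fun x => isGood_mul hN (hc x.1) (hbasgood _ _)
    let T : Finset (Σ t : Finset (Q N), Fin (m t.card)) :=
      S.powerset.sigma fun _ => Finset.univ
    let lam : (Σ t : Finset (Q N), Fin (m t.card)) → ℂ := fun x => coef x.1.card x.2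
    refine ⟨_, T, lam, W, fun n => ?_⟩
    -- the identity of functions
    have hfun : (f : ℍ → ℂ) * U = ∑ x ∈ T, lam x • W x := by
      funext z
      have h1 : ((f : ℍ → ℂ) * U) z = f z * ∏ q ∈ S, (D q * g z - G q z) := by
        simp only [U, Pi.mul_apply, Finset.prod_apply, Pi.sub_apply, Pi.smul_apply, smul_eq_mul]
      rw [h1, hFm z, Finset.sum_apply, Finset.sum_sigma]
      refine Finset.sum_congr rfl fun t _ => ?_
      have h2 : Fm t.card z = ∑ i, coef t.card i * bas t.card i z := by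
        conv_lhs => rw [hdecomp t.card]
        simp
      rw [h2, Finset.mul_sum]
      refine Finset.sum_congr rfl fun i _ => ?_
      simp only [lam, W, c, Pi.smul_apply, Pi.mul_apply, Finset.prod_apply, Pi.neg_apply,
        smul_eq_mul]
      ring
    -- pass to q-expansions
    have hfqf := isQF_of_Γ0 (N := N) f
    have hfper : IsPer N (f : ℍ → ℂ) :=
      ⟨hfqf.holo, by simpa using hfqf.per.nat_mul N, hfqf.bdd⟩
    have hWper : ∀ x ∈ T, IsPer N (lam x • W x) := fun x _ => (isPer_of_isGood (hW x)).smul _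
    have hq := congrArg (qExpansion (N : ℝ)) hfun
    rw [hfper.qExpansion_mul hN hU.1, KeyAux.qExpansion_sum hN T _ hWper] at hq
    have hq2 := congrArg (fun A => PowerSeries.coeff (N * n + ∑ q ∈ S, a q ^ 2) (A * Vinv)) hq
    rw [mul_assoc, hUV, PowerSeries.coeff_mul_X_pow, Finset.sum_mul, map_sum] at hq2
    rw [qExpansion_one_coeff hN hfqf.per hfqf.holo hfqf.bdd n, hq2]
    refine Finset.sum_congr rfl fun x _ => ?_
    rw [(isPer_of_isGood (hW x)).qExpansion_smul hN, smul_mul_assoc, PowerSeries.coeff_smul,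
      smul_eq_mul]
    congr 1
    exact (if_pos (hW x)).symm

end Fermat.Agent.S22
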