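import Mathlib
import Fermat.Prelude.Def_CuspForm_HeckeAlgebra
import Fermat.Prelude.Def_CuspForm_IntegralStructure
import Fermat.Prelude.Thm_CuspForm_intLattice_fg
import Fermat.Prelude.Thm_CuspForm_mem_intLattice_of_mem_heckeAlgebra

/-!
The Hecke algebra is a finite `ℤ`-module as soon as the cusp forms have an integral structure:
it embeds into the endomorphisms of the (finite free) lattice of forms with integral
`q`-expansion.
-/

set_option autoImplicit false

namespace Fermat.Agent.S22

/-- Restriction of the elements of the Hecke algebra to the lattice of cusp forms with integral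
`q`-expansion. -/
noncomputable def latRestrict (N : ℕ) [NeZero N] (k : ℤ) (hk : 1 ≤ k) (S : Set ℕ) :
    ↥(CuspForm.heckeAlgebra N k S) →ₗ[ℤ] Module.End ℤ ↥(CuspForm.intLattice N k) where
  toFun t := LinearMap.restrict
    ((t : Module.End ℂ (CuspForm (CongruenceSubgroup.Gamma0 N) k)).restrictScalars ℤ)
    (fun _f hf => CuspForm.mem_intLattice_of_mem_heckeAlgebra hk t.2 hf)
  map_add' _ _ := LinearMap.ext fun _ => Subtype.ext rfl
  map_smul' _ _ := LinearMap.ext fun _ => Subtype.ext rfl

theorem latRestrict_apply_coe (N : ℕ) [NeZero N] (k : ℤ) (hk : 1 ≤ k) (S : Set ℕ)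
    (t : ↥(CuspForm.heckeAlgebra N k S)) (f : ↥(CuspForm.intLattice N k)) :
    ((latRestrict N k hk S t f : ↥(CuspForm.intLattice N k)) :
      CuspForm (CongruenceSubgroup.Gamma0 N) k) =
      (t : Module.End ℂ (CuspForm (CongruenceSubgroup.Gamma0 N) k)) f := rfl

theorem latRestrict_injective (N : ℕ) [NeZero N] (k : ℤ) (hk : 1 ≤ k) (S : Set ℕ)
    (h : CuspForm.HasIntegralStructure N k) : Function.Injective (latRestrict N k hk S) := by
  rw [injective_iff_map_eq_zero]
  intro t ht
  refine Subtype.ext (LinearMap.ext_on h fun f hf => ?_)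
  exact congrArg Subtype.val (LinearMap.congr_fun ht ⟨f, hf⟩)

theorem moduleFinite_heckeAlgebra_of_hasIntegralStructure (N : ℕ) [NeZero N] (k : ℤ)
    (hk : 1 ≤ k) (S : Set ℕ) (h : CuspForm.HasIntegralStructure N k) :
    Module.Finite ℤ (CuspForm.heckeAlgebra N k S) := by
  have : Module.Finite ℤ ↥(CuspForm.intLattice N k) :=
    Module.Finite.iff_fg.mpr (CuspForm.intLattice_fg N k)
  have : IsAddTorsionFree (CuspForm (CongruenceSubgroup.Gamma0 N) k) :=
    .of_isTorsionFree ℂ _
  have : Module.Free ℤ ↥(CuspForm.intLattice N k) := Module.free_of_finite_type_torsion_free'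
  exact Module.Finite.of_injective (latRestrict N k hk S) (latRestrict_injective N k hk S h)

end Fermat.Agent.S22
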